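import Fermat.Agent.TwoAdic.Galois.Defs
import Fermat.Agent.EC.Rep.Tate.DetCyclotomic
import Fermat.Agent.EC.AtP.Inertia
import Fermat.Agent.OrdinaryAtP.Fixed

/-!
# The two-adic representation of a curve with good ordinary reduction at `2`

The vectors of the Tate module all of whose levels reduce to the origin form a line. Inertia fixes
the quotient by it and a Frobenius element acts on the quotient by the unit root of
`X² - a₂ X + 2`.
-/

set_option autoImplicit false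

noncomputable section

open scoped WeierstrassCurve.Affine
open WeierstrassCurve

namespace Fermat.Agent.TwoAdic

open Arith (QBar GQ)
open EC.Reduction EC.Rep

namespace AtTwo

variable {W : WeierstrassCurve ℤ} (hΔ : W.Δ ≠ 0)

/-- The point of level `k` of a vector. -/
def pt (k : ℕ) : (Fin 2 → ℤ_[2]) →+ PtQ W :=
  AddMonoidHom.mk' (fun v => tateRed hΔ k (v 0, v 1)) fun v w =>
    map_add (tateRed hΔ k) (v 0, v 1) (w 0, w 1)

theorem pt_mulVec (σ : GQ) (k : ℕ) (v : Fin 2 → ℤ_[2]) :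
    pt hΔ k ((rho W hΔ σ).mulVec v) = σ • pt hΔ k v := by
  show tateRed hΔ k _ = σ • tateRed hΔ k _
  rw [← red_tateRep hΔ σ k (v 0, v 1)]
  refine congrArg _ ?_
  have e : ∀ w : ℤ_[2] × ℤ_[2], ⇑((Module.Basis.finTwoProd ℤ_[2]).repr w) = ![w.1, w.2] :=
    fun w => Module.Basis.coe_finTwoProd_repr w
  have h := LinearMap.toMatrix_mulVec_repr (Module.Basis.finTwoProd ℤ_[2])
    (Module.Basis.finTwoProd ℤ_[2]) ((tateRep W 2 hΔ).ρ σ) (v 0, v 1)
  erw [e, e] at h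
  have hv : (![v 0, v 1] : Fin 2 → ℤ_[2]) = v := by
    funext i; fin_cases i <;> rfl
  rw [show (![((v 0, v 1) : ℤ_[2] × ℤ_[2]).1, ((v 0, v 1) : ℤ_[2] × ℤ_[2]).2] : Fin 2 → ℤ_[2])
    = v from hv] at h
  have h0 := congrFun h 0
  have h1 := congrFun h 1
  exact Prod.ext h0 h1

theorem pt_smul {k : ℕ} {c : ℤ_[2]} {a : ℤ} (h : c - a ∈ Ideal.span {(2 : ℤ_[2]) ^ k})
    (v : Fin 2 → ℤ_[2]) : pt hΔ k (c • v) = a • pt hΔ k v :=
  tateRed_smul hΔ (by exact_mod_cast h) (v 0, v 1)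

theorem two_smul_pt (k : ℕ) (v : Fin 2 → ℤ_[2]) :
    (2 : ℤ) • pt hΔ (k + 1) v = pt hΔ k v := by
  exact_mod_cast (EC.Rep.tateBasis W 2 hΔ).smul_red_succ k (v 0, v 1)

variable (A : ValuationSubring QBar)

/-- The residue curve. -/
abbrev resCurve (W : WeierstrassCurve ℤ) (A : ValuationSubring QBar) :
    Affine (IsLocalRing.ResidueField A) :=
  W⁄(IsLocalRing.ResidueField A)

theorem reduces (W : WeierstrassCurve ℤ) (A : ValuationSubring QBar) :
    ReducesTo A ((W.map (Int.castRingHom ℚ))⁄QBar) (resCurve W A) :=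
  reducesTo_int W A

open scoped Classical in
/-- The vectors all of whose levels reduce to the origin. -/
def line : Submodule ℤ_[2] (Fin 2 → ℤ_[2]) where
  carrier := {v | ∀ k, pt hΔ k v ∈ (reduces W A).E1}
  zero_mem' k := by
    show pt hΔ k 0 ∈ _
    rw [map_zero]
    exact zero_mem _
  add_mem' hv hw k := by
    rw [map_add]
    exact add_mem (hv k) (hw k)
  smul_mem' c v hv k := by
    obtain ⟨a, ha⟩ := TateBasis.exists_int_sub_mem (p := 2) k c
    rw [pt_smul hΔ (by exact_mod_cast ha) v]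
    exact zsmul_mem (hv k) a

open scoped Classical in
theorem mem_line {v : Fin 2 → ℤ_[2]} : v ∈ line hΔ A ↔ ∀ k, InE1 A (pt hΔ k v) := Iff.rfl

theorem mem_line_of_two_smul {v : Fin 2 → ℤ_[2]} (h : (2 : ℤ_[2]) • v ∈ line hΔ A) :
    v ∈ line hΔ A := by
  rw [mem_line] at h ⊢
  intro k
  have h1 := h (k + 1)
  rw [pt_smul hΔ (a := 2) (by simp) v, two_smul_pt hΔ k v] at h1
  exact h1

theorem mem_line_of_pow_smul {v : Fin 2 → ℤ_[2]} :
    ∀ n : ℕ, (2 : ℤ_[2]) ^ n • v ∈ line hΔ A → v ∈ line hΔ A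
  | 0, h => by simpa using h
  | n + 1, h => mem_line_of_pow_smul n (mem_line_of_two_smul hΔ A (by
      rwa [smul_smul, ← pow_succ']))

theorem mem_line_of_smul {v : Fin 2 → ℤ_[2]} {c : ℤ_[2]} (hc : c ≠ 0)
    (h : c • v ∈ line hΔ A) : v ∈ line hΔ A := by
  obtain ⟨u, hu⟩ : ∃ u : ℤ_[2]ˣ, c = u * (2 : ℤ_[2]) ^ c.valuation :=
    ⟨PadicInt.unitCoeff hc, PadicInt.unitCoeff_spec hc⟩
  refine mem_line_of_pow_smul hΔ A c.valuation ?_
  have h' := (line hΔ A).smul_mem ((u⁻¹ : ℤ_[2]ˣ) : ℤ_[2]) h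
  rwa [hu, mul_smul, smul_smul, Units.inv_mul, one_smul] at h'

variable {A} (hA : A.LiesOverPrime 2) (hgood : W.IsGoodPrimeFor 2)

include hA hgood in
open scoped Classical in
theorem smul_sub_mem_line {τ : GQ} (hτ : τ ∈ A.inertiaSubgroupIn ℚ) (v : Fin 2 → ℤ_[2]) :
    (rho W hΔ τ).mulVec v - v ∈ line hΔ A := by
  rw [mem_line]
  intro k
  have := EC.FrobTrace.isElliptic_map_rat hΔ
  rw [map_sub, pt_mulVec]
  exact EC.AtP.smul_sub_inE1 (W := W) hτ
    (EC.Reduction.inE0_of_good hA Nat.prime_two hgood (pt hΔ k v))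

include hA hgood in
open scoped Classical in
theorem frobenius_line {σ : GQ} (hσ : A.IsFrobeniusAt σ 2) :
    (∀ v ∈ line hΔ A, (rho W hΔ σ).mulVec v ∈ line hΔ A) ∧
      ∀ v : Fin 2 → ℤ_[2], (rho W hΔ σ).mulVec ((rho W hΔ σ).mulVec v) -
        (W.apOfModel 2 : ℤ_[2]) • (rho W hΔ σ).mulVec v + (2 : ℤ_[2]) • v ∈ line hΔ A := by
  have hE0 : ∀ P, InE0 A (resCurve W A) P := inE0_of_good hA Nat.prime_two hgood
  have h := reduces W A
  let red : PtQ W →+ (W⁄(IsLocalRing.ResidueField A)).Point :=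
    { toFun := redFun A (resCurve W A)
      map_zero' := redFun_zero
      map_add' := fun P Q => (h.add_spec (hE0 P) (hE0 Q)).2 }
  have hsm : ∀ P, red (σ • P) =
      Affine.Point.map (W' := W) (residualFrobenius hA Nat.prime_two) (red P) :=
    fun P => redFun_frobenius W hA Nat.prime_two hσ P
  have hker : ∀ P, red P = 0 ↔ InE1 A P := fun P => redFun_eq_zero_iff (hE0 P)
  constructor
  · intro v hv
    rw [mem_line] at hv ⊢
    intro k
    rw [pt_mulVec, ← hker, hsm, (hker _).mpr (hv k), map_zero]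
  · intro v
    rw [mem_line]
    intro k
    rw [← hker, map_add, map_sub, pt_smul hΔ (a := W.apOfModel 2) (by simp) _,
      pt_smul hΔ (a := 2) (by simp) _, pt_mulVec, pt_mulVec, map_add, map_sub, map_zsmul,
      map_zsmul, hsm, hsm]
    exact (EC.FrobTrace.residual_frobenius_facts W hA Nat.prime_two hgood).1 _

theorem two_torsion_x {x y : QBar}
    (hP : ((W.map (Int.castRingHom ℚ))⁄QBar).toAffine.Nonsingular x y)
    (h : (Affine.Point.some x y hP : PtQ W) + Affine.Point.some x y hP = 0) :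
    4 * x ^ 3 + (W.b₂ : QBar) * x ^ 2 + 2 * (W.b₄ : QBar) * x + (W.b₆ : QBar) = 0 := by
  have hneg : -(Affine.Point.some x y hP : PtQ W) = Affine.Point.some x y hP :=
    neg_eq_of_add_eq_zero_left h
  rw [Affine.Point.neg_some] at hneg
  have hy := ((Affine.Point.some.injEq ..).mp hneg).2
  have he := (Affine.equation_iff x y).mp hP.1
  simp only [Affine.negY] at hy
  simp only [WeierstrassCurve.baseChange, map_a₁, map_a₂, map_a₃, map_a₄, map_a₆,
    eq_intCast, map_intCast] at hy he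
  simp only [WeierstrassCurve.b₂, WeierstrassCurve.b₄, WeierstrassCurve.b₆]
  push_cast
  linear_combination -4 * he + (-(2 * y + (W.a₁ : QBar) * x + (W.a₃ : QBar))) * hy

/-- Odd trace at `2` forces `a₁` odd. -/
theorem odd_a₁ (hgood : W.IsGoodPrimeFor 2) (hap : Odd (W.apOfModel 2)) :
    (W.reductionMod 2).a₁ = 1 := by
  classical
  set V := W.reductionMod 2 with hV
  have hVΔ : V.Δ ≠ 0 := by
    rw [hV, WeierstrassCurve.reductionMod, map_Δ, eq_intCast]
    exact fun h => hgood (by exact_mod_cast (ZMod.intCast_zmod_eq_zero_iff_dvd _ 2).mp h)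
  by_contra ha
  have ha1 : V.a₁ = 0 := by revert ha; generalize V.a₁ = a; revert a; decide
  have hc : V.a₃ = 1 := by
    simp only [WeierstrassCurve.Δ, WeierstrassCurve.b₂, WeierstrassCurve.b₄,
      WeierstrassCurve.b₆, WeierstrassCurve.b₈, ha1] at hVΔ
    revert hVΔ
    generalize V.a₂ = b
    generalize V.a₃ = c
    generalize V.a₄ = e
    generalize V.a₆ = f
    revert b c e f
    decide
  have hiff : ∀ x y : ZMod 2, V.toAffine.Nonsingular x y ↔
      y ^ 2 + V.a₁ * x * y + V.a₃ * y = x ^ 3 + V.a₂ * x ^ 2 + V.a₄ * x + V.a₆ := fun x y => by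
    rw [← Affine.equation_iff_nonsingular_of_Δ_ne_zero hVΔ, Affine.equation_iff]
  have hcard : V.card = (Finset.univ.filter fun xy : ZMod 2 × ZMod 2 =>
      xy.2 ^ 2 + V.a₁ * xy.1 * xy.2 + V.a₃ * xy.2
        = xy.1 ^ 3 + V.a₂ * xy.1 ^ 2 + V.a₄ * xy.1 + V.a₆).card + 1 := by
    rw [WeierstrassCurve.card, Nat.card_congr V.toAffine.nonsingularPointEquiv, WithZero,
      Finite.card_option, Nat.card_eq_fintype_card, Fintype.card_subtype]
    simp only [hiff]
  have heven : ∀ a b c e f : ZMod 2, a = 0 → c = 1 → Even (Finset.univ.filter fun xy :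
      ZMod 2 × ZMod 2 => xy.2 ^ 2 + a * xy.1 * xy.2 + c * xy.2
        = xy.1 ^ 3 + b * xy.1 ^ 2 + e * xy.1 + f).card := by decide
  obtain ⟨k, hk⟩ := heven V.a₁ V.a₂ V.a₃ V.a₄ V.a₆ ha1 hc
  obtain ⟨j, hj⟩ := hap
  rw [WeierstrassCurve.apOfModel, WeierstrassCurve.traceOfFrobenius, ← hV, hcard, hk,
    Nat.card_zmod] at hj
  push_cast at hj
  omega

include hA hgood in
open scoped Classical in
theorem exists_notMem_line (hap : Odd (W.apOfModel 2)) : ∃ v, v ∉ line hΔ A := by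
  by_contra hall
  push Not at hall
  have hb2 : (W.b₂ : QBar) ∉ A.nonunits := by
    intro h
    have hd : (2 : ℤ) ∣ W.b₂ := by
      exact_mod_cast (Arith.intCast_mem_nonunits_iff hA Nat.prime_two W.b₂).mp h
    have h1 := odd_a₁ hgood hap
    have h2 : (W.b₂ : ZMod 2) = 0 :=
      (ZMod.intCast_zmod_eq_zero_iff_dvd _ 2).mpr (by exact_mod_cast hd)
    rw [WeierstrassCurve.reductionMod, map_a₁, eq_intCast] at h1
    rw [WeierstrassCurve.b₂] at h2
    push_cast at h2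
    rw [h1, show (4 : ZMod 2) = 0 by decide] at h2
    simp at h2
  have key : ∀ v : Fin 2 → ℤ_[2], pt hΔ 1 v ≠ 0 → ∃ (x y : QBar)
      (hP : ((W.map (Int.castRingHom ℚ))⁄QBar).toAffine.Nonsingular x y),
      pt hΔ 1 v = Affine.Point.some x y hP ∧ x ∉ A ∧
        4 * x ^ 3 + (W.b₂ : QBar) * x ^ 2 + 2 * (W.b₄ : QBar) * x + (W.b₆ : QBar) = 0 := by
    intro v hv
    have h1 := (mem_line hΔ A).mp (hall v) 1
    have h2 : pt hΔ 1 v + pt hΔ 1 v = 0 := by
      have h2' := pow_smul_tateRed hΔ 1 (v 0, v 1)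
      rw [pow_one, Nat.cast_ofNat, two_zsmul] at h2'
      exact h2'
    match hm : pt hΔ 1 v with
    | .zero => exact absurd hm hv
    | .some x y hP =>
      rw [hm] at h1 h2
      exact ⟨x, y, hP, rfl, (inE1_some hP).mp h1, two_torsion_x hP h2⟩
  have hnz : ∀ v : Fin 2 → ℤ_[2], IsUnit (v 0) ∨ IsUnit (v 1) → pt hΔ 1 v ≠ 0 := by
    intro v hv h0
    obtain ⟨h1, h2⟩ := (tateRed_eq_zero_iff hΔ 1 (v 0, v 1)).mp h0
    rw [pow_one] at h1 h2
    rcases hv with hv | hv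
    · exact (PadicInt.prime_p (p := 2)).not_isUnit
        (isUnit_of_dvd_unit (Ideal.mem_span_singleton.mp h1) hv)
    · exact (PadicInt.prime_p (p := 2)).not_isUnit
        (isUnit_of_dvd_unit (Ideal.mem_span_singleton.mp h2) hv)
  obtain ⟨x, y, hP, hPe, hx, hxe⟩ := key ![1, 0] (hnz _ (Or.inl (by simp)))
  obtain ⟨x', y', hP', hPe', hx', hxe'⟩ := key ![0, 1] (hnz _ (Or.inr (by simp)))
  have hne : x ≠ x' := by
    intro e
    refine hnz ![1, 1] (Or.inl (by simp)) ?_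
    have e1 : (![1, 1] : Fin 2 → ℤ_[2]) = ![1, 0] + ![0, 1] := by
      funext i; fin_cases i <;> simp
    rcases Affine.Y_eq_of_X_eq hP.1 hP'.1 e with hy | hy
    · exfalso
      refine hnz (![1, 0] - ![0, 1]) (Or.inl (by simp)) ?_
      rw [map_sub, hPe, hPe', sub_eq_zero]
      exact (Affine.Point.some.injEq ..).mpr ⟨e, hy⟩
    · rw [e1, map_add, hPe, hPe']
      refine eq_neg_iff_add_eq_zero.mp ?_
      rw [Affine.Point.neg_some]
      exact (Affine.Point.some.injEq ..).mpr ⟨e, hy⟩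
  have hx0 : x ≠ 0 := ne_zero_of_not_mem hx
  have hx0' : x' ≠ 0 := ne_zero_of_not_mem hx'
  have et : ∀ z : QBar, z ≠ 0 →
      4 * z ^ 3 + (W.b₂ : QBar) * z ^ 2 + 2 * (W.b₄ : QBar) * z + (W.b₆ : QBar) = 0 →
      4 + (W.b₂ : QBar) * z⁻¹ + 2 * (W.b₄ : QBar) * z⁻¹ ^ 2 + (W.b₆ : QBar) * z⁻¹ ^ 3 = 0 := by
    intro z hz he
    have h3 : z ^ 3 ≠ 0 := pow_ne_zero 3 hz
    field_simp
    linear_combination he
  have h1 := et x hx0 hxe
  have h2 := et x' hx0' hxe'
  have h3 : (x⁻¹ - x'⁻¹) * ((W.b₂ : QBar) + (2 * (W.b₄ : QBar) * (x⁻¹ + x'⁻¹) +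
      (W.b₆ : QBar) * (x⁻¹ ^ 2 + x⁻¹ * x'⁻¹ + x'⁻¹ ^ 2))) = 0 := by
    linear_combination h1 - h2
  have h4 := (mul_eq_zero.mp h3).resolve_left
    (sub_ne_zero.mpr fun e => hne (inv_injective e))
  refine hb2 ?_
  rw [eq_neg_of_add_eq_zero_left h4]
  have ht := inv_mem_nonunits hx
  have ht' := inv_mem_nonunits hx'
  refine Arith.nonunits_neg (Arith.nonunits_add ?_ ?_)
  · exact Arith.nonunits_mul_left (mul_mem (by exact_mod_cast natCast_mem A 2)
      (intCast_mem A _)) (Arith.nonunits_add ht ht')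
  · refine Arith.nonunits_mul_left (intCast_mem A _)
      (Arith.nonunits_add (Arith.nonunits_add ?_ ?_) ?_)
    · rw [sq]; exact Arith.nonunits_mul_left (Arith.mem_of_mem_nonunits ht) ht
    · exact Arith.nonunits_mul_left (Arith.mem_of_mem_nonunits ht) ht'
    · rw [sq]; exact Arith.nonunits_mul_left (Arith.mem_of_mem_nonunits ht') ht'

theorem exists_inertia_moves_four (hA : A.LiesOverPrime 2) :
    ∃ τ ∈ A.inertiaSubgroupIn ℚ, ∃ c : ℕ, (∀ ζ : QBar, ζ ^ 2 ^ 2 = 1 → τ ζ = ζ ^ c) ∧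
      c % 4 = 3 := by
  obtain ⟨z, hz⟩ := IsAlgClosed.exists_pow_nat_eq (-1 : QBar) two_pos
  obtain ⟨τ, hτ, hne⟩ : ∃ τ ∈ A.inertiaSubgroupIn ℚ, τ z ≠ z := by
    by_contra hall
    push Not at hall
    have hx : z - 1 ≠ 0 := fun h => by
      rw [sub_eq_zero.mp h] at hz
      norm_num at hz
    obtain ⟨k, u, hk⟩ := OrdinaryAtP.exists_zpow_mul_unit hA Nat.prime_two hx
      (fun τ hτ => by rw [map_sub, map_one, hall τ hτ])
    have hu : A.valuation ((u : OrdinaryAtP.fixRing A) : QBar) = 1 := by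
      exact (A.valuation_eq_one_iff ⟨_, (u : OrdinaryAtP.fixRing A).2.1⟩).mp
        (u.isUnit.map (OrdinaryAtP.fixToPlace A))
    have hvz : A.valuation z = 1 := by
      have h2 : A.valuation z ^ 2 = 1 := by rw [← map_pow, hz, Valuation.map_neg, map_one]
      exact (pow_eq_one_iff_of_nonneg zero_le two_ne_zero).mp h2
    have hsq : (z - 1) ^ 2 = -((2 : QBar) * z) := by linear_combination hz
    have h2 : A.valuation ((z - 1) ^ 2) = A.valuation (2 : QBar) := by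
      rw [hsq, Valuation.map_neg, map_mul, hvz, mul_one]
    rw [hk, map_pow, map_mul, map_zpow₀, hu, mul_one, ← zpow_natCast, ← zpow_mul] at h2
    have hpos : 0 < A.valuation (2 : QBar) :=
      zero_lt_iff.mpr ((Valuation.ne_zero_iff _).mpr two_ne_zero)
    have hlt : A.valuation (2 : QBar) < 1 := by
      have := (ValuationSubring.mem_nonunits_iff A).mp hA
      exact_mod_cast this
    have h3 := zpow_right_injective₀ hpos hlt.ne
      (h2.trans (zpow_one (A.valuation (2 : QBar))).symm)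
    push_cast at h3
    omega
  refine ⟨τ, hτ, 3, fun ζ hζ => ?_, rfl⟩
  have hroots : ∀ w : QBar, w ^ 2 = -1 → w = z ∨ w = -z := fun w hw =>
    sq_eq_sq_iff_eq_or_eq_neg.mp (hw.trans hz.symm)
  have hτz : τ z = -z := (hroots (τ z) (by rw [← map_pow, hz, map_neg, map_one])).resolve_left hne
  have h4 : ζ = 1 ∨ ζ = -1 ∨ ζ = z ∨ ζ = -z := by
    have h5 : (ζ ^ 2 - 1) * (ζ ^ 2 + 1) = 0 := by linear_combination hζ
    rcases mul_eq_zero.mp h5 with h | h
    · rcases sq_eq_one_iff.mp (sub_eq_zero.mp h) with h | h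
      · exact Or.inl h
      · exact Or.inr (Or.inl h)
    · exact Or.inr (Or.inr (hroots ζ (eq_neg_of_add_eq_zero_left h)))
  rcases h4 with rfl | rfl | rfl | rfl
  · simp
  · rw [map_neg, map_one]; norm_num
  · rw [hτz, pow_succ, hz, neg_one_mul]
  · rw [map_neg, hτz]; linear_combination z * hz

include hA hgood in
theorem exists_mem_line : ∃ v ∈ line hΔ A, v ≠ 0 := by
  obtain ⟨τ, hτ, c, hc, hc3⟩ := exists_inertia_moves_four hA
  by_contra hall
  push Not at hall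
  have h1 : rho W hΔ τ = 1 := by
    refine Matrix.ext_of_mulVec_single fun j => ?_
    have := hall _ (smul_sub_mem_line hΔ hA hgood hτ (Pi.single j 1))
    rw [Matrix.one_mulVec]
    exact sub_eq_zero.mp this
  have h := (EC.Rep.detIsCyclotomic_tateRep (W := W) (p := 2) hΔ).2 2 τ c hc
  have hdet : LinearMap.det ((tateRep W 2 hΔ).ρ τ) = 1 :=
    (LinearMap.det_toMatrix (Module.Basis.finTwoProd ℤ_[2])
      ((tateRep W 2 hΔ).ρ τ)).symm.trans ((congrArg Matrix.det h1).trans Matrix.det_one)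
  rw [hdet, Ideal.mem_span_singleton] at h
  obtain ⟨d, hd⟩ := h
  have h4 := congrArg (PadicInt.toZModPow (p := 2) 2) hd
  rw [map_sub, map_one, map_natCast, map_mul, map_natCast] at h4
  have hc' : (c : ZMod (2 ^ 2)) = 3 := by
    rw [← ZMod.natCast_mod c (2 ^ 2)]
    norm_num [hc3]
  rw [hc', ZMod.natCast_self, zero_mul] at h4
  exact absurd h4 (by decide)

include hA hgood in
/-- A change of basis making the line the first axis. -/
theorem exists_adapted (hap : Odd (W.apOfModel 2)) :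
    ∃ g : (M2 ℤ_[2])ˣ, ∀ v, (g : M2 ℤ_[2]).mulVec v ∈ line hΔ A ↔ v 1 = 0 := by
  classical
  obtain ⟨v₀, hv₀, hv₀0⟩ := exists_mem_line hΔ hA hgood
  obtain ⟨w, hw⟩ := exists_notMem_line hΔ hA hgood hap
  have step : ∀ g : (M2 ℤ_[2])ˣ,
      (g : M2 ℤ_[2]).mulVec ![1, 0] ∈ line hΔ A →
      ∀ v, (g : M2 ℤ_[2]).mulVec v ∈ line hΔ A ↔ v 1 = 0 := by
    intro g he v
    have e : v = v 0 • ![1, 0] + v 1 • ![0, 1] := by
      funext i; fin_cases i <;> simp
    constructor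
    · intro hv
      by_contra h1
      have h2 : v 1 • (g : M2 ℤ_[2]).mulVec ![0, 1] ∈ line hΔ A := by
        rw [e, Matrix.mulVec_add, Matrix.mulVec_smul, Matrix.mulVec_smul] at hv
        exact (Submodule.add_mem_iff_right _ ((line hΔ A).smul_mem _ he)).mp hv
      have h3 := mem_line_of_smul hΔ A h1 h2
      refine hw ?_
      have e' : w = (g : M2 ℤ_[2]).mulVec (((g⁻¹ : (M2 ℤ_[2])ˣ) : M2 ℤ_[2]).mulVec w) := by
        rw [Matrix.mulVec_mulVec, Units.mul_inv, Matrix.one_mulVec]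
      rw [e']
      generalize ((g⁻¹ : (M2 ℤ_[2])ˣ) : M2 ℤ_[2]).mulVec w = u
      rw [show u = u 0 • ![1, 0] + u 1 • ![0, 1] by funext i; fin_cases i <;> simp,
        Matrix.mulVec_add, Matrix.mulVec_smul, Matrix.mulVec_smul]
      exact add_mem ((line hΔ A).smul_mem _ he) ((line hΔ A).smul_mem _ h3)
    · intro h1
      rw [e, h1, zero_smul, add_zero, Matrix.mulVec_smul]
      exact (line hΔ A).smul_mem _ he
  have hgen : ∃ c : ℤ_[2], ![1, c] ∈ line hΔ A ∨ ![c, 1] ∈ line hΔ A := by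
    rcases ValuationRing.dvd_total (v₀ 0) (v₀ 1) with ⟨c, hc⟩ | ⟨c, hc⟩
    · refine ⟨c, Or.inl (mem_line_of_smul hΔ A (c := v₀ 0) ?_ ?_)⟩
      · intro h0
        refine hv₀0 (funext fun i => ?_)
        fin_cases i
        · exact h0
        · simpa [h0] using hc
      · have : v₀ 0 • ![1, c] = v₀ := by funext i; fin_cases i <;> simp [hc]
        rw [this]; exact hv₀
    · refine ⟨c, Or.inr (mem_line_of_smul hΔ A (c := v₀ 1) ?_ ?_)⟩
      · intro h0
        refine hv₀0 (funext fun i => ?_)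
        fin_cases i
        · simpa [h0] using hc
        · exact h0
      · have : v₀ 1 • ![c, 1] = v₀ := by funext i; fin_cases i <;> simp [hc]
        rw [this]; exact hv₀
  obtain ⟨c, hc | hc⟩ := hgen
  · refine ⟨⟨!![1, 0; c, 1], !![1, 0; -c, 1], ?_, ?_⟩, step _ ?_⟩
    · ext i j; fin_cases i <;> fin_cases j <;> simp
    · ext i j; fin_cases i <;> fin_cases j <;> simp
    · have : (!![1, 0; c, 1] : M2 ℤ_[2]).mulVec ![1, 0] = ![1, c] := by
        funext i; fin_cases i <;> simp [Matrix.mulVec, dotProduct]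
      simpa [this] using hc
  · refine ⟨⟨!![c, 1; 1, 0], !![0, 1; 1, -c], ?_, ?_⟩, step _ ?_⟩
    · ext i j; fin_cases i <;> fin_cases j <;> simp
    · ext i j; fin_cases i <;> fin_cases j <;> simp
    · have : (!![c, 1; 1, 0] : M2 ℤ_[2]).mulVec ![1, 0] = ![c, 1] := by
        funext i; fin_cases i <;> simp [Matrix.mulVec, dotProduct]
      simpa [this] using hc

end AtTwo

/-- Two unit roots of `X² - a X + 2` over `ℤ_[2]`, `a` odd, are equal. -/
theorem eq_of_unit_root {a : ℤ} (ha : Odd a) {x y : ℤ_[2]} (hx : IsUnit x) (hy : IsUnit y)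
    (ex : x * x - (a : ℤ_[2]) * x + 2 = 0) (ey : y * y - (a : ℤ_[2]) * y + 2 = 0) : x = y := by
  have h : (x - y) * (x + y - (a : ℤ_[2])) = 0 := by linear_combination ex - ey
  refine sub_eq_zero.mp ((mul_eq_zero.mp h).resolve_right fun h0 => ?_)
  have h1 := congrArg (PadicInt.toZMod (p := 2)) h0
  rw [map_sub, map_add, map_intCast, map_zero] at h1
  have hu : ∀ z : ZMod 2, IsUnit z → z = 1 := by decide
  obtain ⟨j, rfl⟩ := ha
  rw [hu _ (hx.map _), hu _ (hy.map _)] at h1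
  push_cast at h1
  rw [show (2 : ZMod 2) = 0 by decide, zero_mul] at h1
  exact absurd h1 (by decide)

/-- **The two-adic representation at a good ordinary `2`.** -/
theorem exists_ordinary_two {W : WeierstrassCurve ℤ} (hΔ : W.Δ ≠ 0)
    (hgood : W.IsGoodPrimeFor 2) (hap : Odd (W.apOfModel 2)) :
    ∃ α u : ℤ_[2], u * α = 1 ∧ α * α - (W.apOfModel 2 : ℤ_[2]) * α + 2 = 0 ∧
      ∀ P : ValuationSubring QBar, P.LiesOverPrime 2 → ∀ σ : GQ, P.IsFrobeniusAt σ 2 →
        (rho W hΔ σ).trace = α + (rho W hΔ σ).det * u ∧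
        ∀ τ ∈ P.inertiaSubgroupIn ℚ, (rho W hΔ τ).trace = 1 + (rho W hΔ τ).det ∧
          (rho W hΔ τ - (rho W hΔ τ).det • 1) * (rho W hΔ σ - α • 1) = 0 ∧
          ∀ τ' ∈ P.inertiaSubgroupIn ℚ,
            (rho W hΔ τ - (rho W hΔ τ).det • 1) * (rho W hΔ τ' - 1) = 0 := by
  classical
  have hmain : ∀ P : ValuationSubring QBar, P.LiesOverPrime 2 → ∀ σ : GQ, P.IsFrobeniusAt σ 2 →
      ∃ (g : (M2 ℤ_[2])ˣ) (μ s β : ℤ_[2]), IsUnit β ∧
        β * β - (W.apOfModel 2 : ℤ_[2]) * β + 2 = 0 ∧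
        ((g⁻¹ : (M2 ℤ_[2])ˣ) : M2 ℤ_[2]) * rho W hΔ σ * g = !![μ, s; 0, β] ∧
        ∀ τ ∈ P.inertiaSubgroupIn ℚ, ∃ l t : ℤ_[2],
          ((g⁻¹ : (M2 ℤ_[2])ˣ) : M2 ℤ_[2]) * rho W hΔ τ * g = !![l, t; 0, 1] := by
    intro P hP σ hσ
    obtain ⟨g, hg⟩ := AtTwo.exists_adapted hΔ hP hgood hap
    set c : M2 ℤ_[2] → M2 ℤ_[2] :=
      fun X => ((g⁻¹ : (M2 ℤ_[2])ˣ) : M2 ℤ_[2]) * X * g with hcdef
    have hcv : ∀ X v, (g : M2 ℤ_[2]).mulVec ((c X).mulVec v) =
        X.mulVec ((g : M2 ℤ_[2]).mulVec v) := fun X v => by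
      simp only [hcdef, Matrix.mulVec_mulVec, ← mul_assoc, Units.mul_inv, one_mul]
    obtain ⟨hF, hQ⟩ := AtTwo.frobenius_line hΔ hP hgood hσ
    set F := c (rho W hΔ σ) with hFdef
    have e0 : (F.mulVec ![1, 0]) 1 = 0 := by
      rw [← hg, hFdef, hcv]
      exact hF _ ((hg ![1, 0]).mpr rfl)
    have hF10 : F 1 0 = 0 := by simpa [Matrix.mulVec, dotProduct] using e0
    have e1 : ((F.mulVec (F.mulVec ![0, 1]) - (W.apOfModel 2 : ℤ_[2]) • F.mulVec ![0, 1] +
        (2 : ℤ_[2]) • ![0, 1] : Fin 2 → ℤ_[2]) 1) = 0 := by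
      rw [← hg, Matrix.mulVec_add, Matrix.mulVec_sub, Matrix.mulVec_smul, Matrix.mulVec_smul,
        hFdef, hcv, hcv]
      exact hQ _
    have hroot : F 1 1 * F 1 1 - (W.apOfModel 2 : ℤ_[2]) * F 1 1 + 2 = 0 := by
      simpa [Matrix.mulVec, dotProduct, Fin.sum_univ_two, hF10] using e1
    have hFeq : F = !![F 0 0, F 0 1; 0, F 1 1] := by
      ext i j; fin_cases i <;> fin_cases j <;> simp [hF10]
    have hunit : IsUnit (F 1 1) := by
      have hdet : IsUnit F.det := by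
        rw [hFdef, hcdef]
        simp only [Matrix.det_units_conj']
        exact (Matrix.isUnit_iff_isUnit_det _).mp ((Group.isUnit σ).map (rho W hΔ))
      rw [Matrix.det_fin_two, hF10, mul_zero, sub_zero] at hdet
      exact isUnit_of_mul_isUnit_right hdet
    refine ⟨g, F 0 0, F 0 1, F 1 1, hunit, hroot, hFeq, fun τ hτ => ?_⟩
    have hT : ∀ v, ((c (rho W hΔ τ)).mulVec v - v) 1 = 0 := fun v => by
      rw [← hg, Matrix.mulVec_sub, hcv]
      exact AtTwo.smul_sub_mem_line hΔ hP hgood hτ _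
    refine ⟨c (rho W hΔ τ) 0 0, c (rho W hΔ τ) 0 1, ?_⟩
    have a1 := hT ![1, 0]
    have a2 := hT ![0, 1]
    simp [sub_eq_zero] at a1 a2
    show c (rho W hΔ τ) = _
    ext i j; fin_cases i <;> fin_cases j <;> simp [a1, a2]
  obtain ⟨P₀, hP₀⟩ := Arith.exists_liesOverPrime Nat.prime_two
  obtain ⟨σ₀, hσ₀⟩ := Arith.exists_isFrobeniusAt hP₀ Nat.prime_two
  obtain ⟨_, _, _, α, hα, hαroot, -, -⟩ := hmain P₀ hP₀ σ₀ hσ₀
  obtain ⟨u, hu⟩ := hα
  refine ⟨α, ((u⁻¹ : ℤ_[2]ˣ) : ℤ_[2]), by rw [← hu, Units.inv_mul], hαroot,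
    fun P hP σ hσ => ?_⟩
  obtain ⟨g, μ, s, β, hβ, hβroot, hF, hI⟩ := hmain P hP σ hσ
  obtain rfl : β = α := eq_of_unit_root hap hβ (hu ▸ u.isUnit) hβroot hαroot
  have back : ∀ {X Y : M2 ℤ_[2]}, ((g⁻¹ : (M2 ℤ_[2])ˣ) : M2 ℤ_[2]) * X * g = Y →
      X = (g : M2 ℤ_[2]) * Y * ((g⁻¹ : (M2 ℤ_[2])ˣ) : M2 ℤ_[2]) := fun {X Y} h => by
    simp [← h, mul_assoc]
  have hprod : ∀ {X Y : M2 ℤ_[2]} (a b : ℤ_[2]), (X - a • 1) * (Y - b • 1) = 0 →
      ((g : M2 ℤ_[2]) * X * ((g⁻¹ : (M2 ℤ_[2])ˣ) : M2 ℤ_[2]) - a • 1) *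
        ((g : M2 ℤ_[2]) * Y * ((g⁻¹ : (M2 ℤ_[2])ˣ) : M2 ℤ_[2]) - b • 1) = 0 := by
    intro X Y a b h
    have h' : ∀ (Z : M2 ℤ_[2]) (t : ℤ_[2]),
        (g : M2 ℤ_[2]) * Z * ((g⁻¹ : (M2 ℤ_[2])ˣ) : M2 ℤ_[2]) - t • 1 =
          (g : M2 ℤ_[2]) * (Z - t • 1) * ((g⁻¹ : (M2 ℤ_[2])ˣ) : M2 ℤ_[2]) := fun Z t => by
      simp [mul_sub, sub_mul]
    rw [h', h']
    simp only [mul_assoc, Units.inv_mul_cancel_left]
    rw [← mul_assoc (X - a • 1), h, zero_mul, mul_zero]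
  rw [back hF]
  refine ⟨?_, fun τ hτ => ?_⟩
  · rw [Matrix.trace_units_conj, Matrix.det_units_conj, Matrix.trace_fin_two_of,
      Matrix.det_fin_two_of, ← hu, mul_zero, sub_zero, mul_assoc, Units.mul_inv, mul_one]
    ring
  obtain ⟨l, t, hT⟩ := hI τ hτ
  rw [back hT]
  refine ⟨?_, ?_, fun τ' hτ' => ?_⟩
  · rw [Matrix.trace_units_conj, Matrix.det_units_conj, Matrix.trace_fin_two_of,
      Matrix.det_fin_two_of]
    ring
  · rw [Matrix.det_units_conj, Matrix.det_fin_two_of, mul_zero, sub_zero, mul_one]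
    refine hprod l β ?_
    ext i j; fin_cases i <;> fin_cases j <;> simp [Matrix.mul_apply, Fin.sum_univ_two]
  · obtain ⟨l', t', hT'⟩ := hI τ' hτ'
    rw [back hT', Matrix.det_units_conj, Matrix.det_fin_two_of, mul_zero, sub_zero, mul_one]
    have := hprod (X := !![l, t; 0, 1]) (Y := !![l', t'; 0, 1]) l 1 (by
      ext i j; fin_cases i <;> fin_cases j <;> simp [Matrix.mul_apply, Fin.sum_univ_two])
    simpa only [one_smul] using this

end Fermat.Agent.TwoAdic
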