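import Fermat.Agent.TwoAdic.Galois.Interface
import Fermat.Agent.TwoAdic.Galois.Residual
import Fermat.Agent.TwoAdic.Congruence.Curve
import Fermat.Agent.TwoAdic.Curve.AtTwo

/-!
# The representation of a curve of class C has the properties of the interface
-/

set_option autoImplicit false
set_option synthInstance.maxHeartbeats 400000

noncomputable section

open WeierstrassCurve

namespace Fermat.Agent.TwoAdic

open Arith (QBar GQ)

variable {W : WeierstrassCurve ℤ}

/-- The rotations among the matrices of determinant one over `𝔽₂`. -/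
theorem isC_iff_not_transposition : ∀ X : M2 (ZMod 2), X.det = 1 →
    (Dihedral.IsC X ↔ ¬ (X ≠ 1 ∧ X * X = 1)) := by
  unfold Dihedral.IsC
  decide

theorem rhoBar_cube : ∀ X : M2 (ZMod 2), X.det = 1 → X * X ≠ 1 → X * X * X = 1 := by
  decide

/-- The rotations fix `√-N`. -/
theorem mem_GK_iff_isC (hW : IsClassC W) (σ : GQ) :
    σ ∈ GK W.conductorLevel ↔ Dihedral.IsC (rhoBar W hW.Δ_ne_zero σ) := by
  rw [isC_iff_not_transposition _ (rhoBar_det hW.Δ_ne_zero σ), GK, MulAction.mem_stabilizer_iff,
    AlgEquiv.smul_def]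
  set y := sqrtNeg W.conductorLevel
  have hy : y ≠ 0 := fun h => by
    have := sq_sqrtNeg W.conductorLevel
    rw [show sqrtNeg W.conductorLevel = y from rfl, h] at this
    exact W.conductorLevel_pos.ne' (by simpa using this.symm)
  constructor
  · rintro hfix ⟨h1, h2⟩
    have h := smul_sqrtNeg_of_involution hW h1 h2
    rw [hfix] at h
    exact hy (by linear_combination (1 / 2 : QBar) * h)
  · intro hnot
    by_cases h1 : rhoBar W hW.Δ_ne_zero σ = 1
    · exact smul_sqrtNeg_of_eq_one hW h1
    have h2 : rhoBar W hW.Δ_ne_zero σ * rhoBar W hW.Δ_ne_zero σ ≠ 1 := fun h => hnot ⟨h1, h⟩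
    have h3 : rhoBar W hW.Δ_ne_zero (σ * σ * σ) = 1 := by
      rw [map_mul, map_mul]
      exact rhoBar_cube _ (rhoBar_det hW.Δ_ne_zero σ) h2
    have h := smul_sqrtNeg_of_eq_one hW h3
    rw [AlgEquiv.mul_apply, AlgEquiv.mul_apply] at h
    rcases sq_eq_sq_iff_eq_or_eq_neg.mp
      (show σ y ^ 2 = y ^ 2 by rw [← map_pow, sq_sqrtNeg, map_neg, map_natCast]) with h0 | h0
    · exact h0
    · rw [h0, map_neg, h0, neg_neg, h0] at h
      exact absurd (show y = 0 by linear_combination (-1 / 2 : QBar) * h) hy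

/-- **The properties of the representation of a curve of class C.** -/
theorem curveRepInput : CurveRepInput := fun W hW =>
  { finiteLevel := Congruence.isFiniteLevel_rhoPow hW.Δ_ne_zero
    det := fun k σ c hc => by
      rw [rhoPow_det, ← sub_eq_zero, ← map_natCast (PadicInt.toZModPow (p := 2) k) c, ← map_sub,
        ← RingHom.mem_ker, PadicInt.ker_toZModPow]
      exact Congruence.rho_det_sub_mem hW.Δ_ne_zero k σ c hc
    full := fun _ hX => exists_rhoBar_eq hW hX
    rotations := mem_GK_iff_isC hW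
    frobenius := fun ℓ hℓ h2 hgood P hP σ hσ => rho_frobenius hW.Δ_ne_zero hℓ h2 hgood hP hσ
    unramified := fun ℓ hℓ h2 hgood P hP τ hτ =>
      rho_eq_one_of_inertia hW.Δ_ne_zero hℓ h2 hgood hP hτ
    bad := fun ℓ hℓ hd P hP =>
      ⟨fun τ hτ => (Congruence.rho_bad hW.Δ_ne_zero hW.semistable hℓ (hW.ne_two_of_dvd hd) hP
          hτ).symm,
        exists_inertia_rhoBar_ne_one hW hℓ hd hP⟩
    two := exists_ordinary_two hW.Δ_ne_zero hW.isGoodPrimeFor_two hW.ap_two_odd
    flat := Congruence.exists_galOrder_rhoPow hW.Δ_ne_zero hW.isGoodPrimeFor_two }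

end Fermat.Agent.TwoAdic
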